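import Fermat.Agent.S34.LF
import Fermat.Agent.S19.Move.Defs

set_option autoImplicit false
set_option linter.unusedSectionVars false

/-!
# S33 / Move / Fin : the closed points of a chart over the zeros of `Φ mod ϖ` are finite in number (and maximal)
-/

noncomputable section

namespace Fermat.Agent.S33.Move

open Polynomial IntermediateField Fermat.Agent.S18 Fermat.Agent.S34 Fermat.Agent.S19.Move

variable {R K F : Type} [CommRing R] [IsDomain R] [IsDiscreteValuationRing R] [Field K] [CharZero K]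
  [Algebra R K] [IsFractionRing R K] [Field F] [Algebra K F] {ϖ : R}

/-- `R[X] → C`, `X ↦ t`. -/
def phiC (R K : Type) {F : Type} [CommRing R] [Field K] [Algebra R K] [Field F] [Algebra K F]
    (t : F) : R[X] →+* CInt R K t :=
  (evR R K t).codRestrict (CInt R K t) (fun p => evR_mem_CInt t p)

omit [IsDomain R] [IsDiscreteValuationRing R] [CharZero K] [IsFractionRing R K] in
theorem phiC_isIntegral (t : F) : (phiC R K t).IsIntegral := by
  intro c
  obtain ⟨P, hP, h0⟩ := c.2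
  refine ⟨P, hP, ?_⟩
  apply Subtype.ext
  have h1 := Polynomial.hom_eval₂ P (phiC R K t) (CInt R K t).subtype c
  have h2 : (CInt R K t).subtype.comp (phiC R K t) = evR R K t := RingHom.ext fun _ => rfl
  rw [h2] at h1
  exact h1.trans h0

/-- a prime of `R[X]` containing `ϖ` and `Φ ≢ 0 mod ϖ` is maximal. -/
theorem isMaximal_of_mem (hϖ : Irreducible ϖ) {Φ : R[X]} (hΦ : ¬ C ϖ ∣ Φ) (𝔪 : Ideal R[X])
    (hp : 𝔪.IsPrime) (h1 : C ϖ ∈ 𝔪) (h2 : Φ ∈ 𝔪) : 𝔪.IsMaximal := by
  haveI : (Ideal.span {ϖ}).IsMaximal := PrincipalIdealRing.isMaximal_of_irreducible hϖ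
  letI : Field (R ⧸ Ideal.span {ϖ}) := Ideal.Quotient.field _
  let ψ : R[X] →+* (R ⧸ Ideal.span {ϖ})[X] := Polynomial.mapRingHom (Ideal.Quotient.mk _)
  have hψ : Function.Surjective ψ := Polynomial.map_surjective _ Ideal.Quotient.mk_surjective
  have hdvd : ∀ P : R[X], ψ P = 0 → C ϖ ∣ P := by
    intro P hP
    rw [Polynomial.C_dvd_iff_dvd_coeff]
    intro i
    have h := congrArg (fun q => Polynomial.coeff q i) hP
    simp only [ψ, Polynomial.coe_mapRingHom, Polynomial.coeff_map, Polynomial.coeff_zero] at h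
    rwa [Ideal.Quotient.eq_zero_iff_mem, Ideal.mem_span_singleton] at h
  have hker : RingHom.ker ψ ≤ 𝔪 := by
    intro P hP
    obtain ⟨Q, rfl⟩ := hdvd P hP
    exact 𝔪.mul_mem_right _ h1
  have hprime : (𝔪.map ψ).IsPrime := Ideal.map_isPrime_of_surjective hψ hker
  have hne : 𝔪.map ψ ≠ ⊥ := by
    intro h
    have h3 : ψ Φ ∈ 𝔪.map ψ := Ideal.mem_map_of_mem ψ h2
    rw [h, Ideal.mem_bot] at h3
    exact hΦ (hdvd Φ h3)
  have hmax : (𝔪.map ψ).IsMaximal := hprime.isMaximal hne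
  have heq : 𝔪 = (𝔪.map ψ).comap ψ := by
    rw [Ideal.comap_map_of_surjective ψ hψ]
    exact (sup_eq_left.2 (by rwa [← RingHom.ker_eq_comap_bot])).symm
  rw [heq]
  exact Ideal.comap_isMaximal_of_surjective ψ hψ

/-- a prime of the chart containing `ϖ` and `Φ(t)` is maximal. -/
theorem isMaximal_closed (hϖ : Irreducible ϖ) {t : F} {Φ : R[X]} (hΦ : ¬ C ϖ ∣ Φ)
    (n : Ideal (CInt R K t)) (hp : n.IsPrime) (h1 : unifC t ϖ ∈ n) (h2 : evC t Φ ∈ n) :
    n.IsMaximal := by
  have hc : (n.comap (phiC R K t)).IsPrime := Ideal.comap_isPrime _ _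
  have hm : (n.comap (phiC R K t)).IsMaximal := by
    refine isMaximal_of_mem hϖ hΦ _ hc ?_ ?_
    · rw [Ideal.mem_comap]
      have : phiC R K t (C ϖ) = unifC t ϖ := by
        apply Subtype.ext
        show evR R K t (C ϖ) = rE R K F ϖ
        simp [evR]
      rw [this]
      exact h1
    · rw [Ideal.mem_comap]
      exact h2
  exact Ideal.isMaximal_of_isIntegral_of_isMaximal_comap' (phiC R K t) (phiC_isIntegral t) n hm

/-- **(F)**. -/
theorem finite_closed (hϖ : Irreducible ϖ) {t : F} (ht : Transcendental K t)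
    (hfin : FiniteDimensional K⟮t⟯ F) {Φ : R[X]} (hΦ : ¬ C ϖ ∣ Φ) :
    {n : Ideal (CInt R K t) | n.IsPrime ∧ unifC t ϖ ∈ n ∧ evC t Φ ∈ n}.Finite ∧
      ∀ n : Ideal (CInt R K t), n.IsPrime → unifC t ϖ ∈ n → evC t Φ ∈ n → n.IsMaximal := by
  refine ⟨?_, fun n hp h1 h2 => isMaximal_closed hϖ hΦ n hp h1 h2⟩
  haveI : IsNoetherianRing (CInt R K t) := lf_noeth ht hfin
  set J : Ideal (CInt R K t) := Ideal.span {unifC t ϖ, evC t Φ} with hJ
  refine (Ideal.finite_minimalPrimes_of_isNoetherianRing _ J).subset ?_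
  rintro n ⟨hp, h1, h2⟩
  have hJn : J ≤ n := by
    rw [hJ, Ideal.span_le]
    rintro x (rfl | rfl)
    · exact h1
    · exact h2
  obtain ⟨P, hPmin, hPle⟩ := Ideal.exists_minimalPrimes_le hJn
  have hPmax : P.IsMaximal := isMaximal_closed hϖ hΦ P hPmin.1.1
    (hPmin.1.2 (Ideal.subset_span (by simp))) (hPmin.1.2 (Ideal.subset_span (by simp)))
  have : P = n := hPmax.eq_of_le hp.ne_top hPle
  rw [← this]
  exact hPmin

end Fermat.Agent.S33.Move
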