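import Fermat.Agent.S19.Move.Comp
import Fermat.Agent.S33.EV.WR

set_option autoImplicit false
set_option linter.unusedSectionVars false

/-!
# S33 / Move / Pt : the composite valuation ring `Wc h A v` is "point-like"   (leaf (P))

`Wc h A v = {z | z regular at v, z(v) ∈ A}`.  `IntAt h A v z ↔ z ∈ Wc h A v`,
`NearAt h A Γ v G ↔ ∃ γ ∈ Γ, G - γ ∈ (Wc h A v).nonunits`.
-/

noncomputable section

namespace Fermat.Agent.S33.Move

open AlgebraicCurve Fermat.Agent.S24 Fermat.Agent.DIV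
open Fermat.Agent.S19.Move (Wc mem_Wc mem_Wc_nonunits algebraMap_mem_Wc algebraMap_mem_Wc_nonunits)

variable {K F : Type} [Field K] [Field F] [Algebra K F] [IsAlgClosed K] (h : IsFF1 K F)
  (A : ValuationSubring K) (v : Place K F)

theorem pt_intAt_iff {z : F} : EV.IntAt h A v z ↔ z ∈ Wc h A v := Iff.rfl

theorem pt_mem (a : K) (ha : a ∈ A) : algebraMap K F a ∈ Wc h A v :=
  (algebraMap_mem_Wc h A v).2 ha

theorem pt_non (a : K) (ha : algebraMap K F a ∈ (Wc h A v).nonunits) : a ∈ A.nonunits :=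
  (algebraMap_mem_Wc_nonunits h A v).1 ha

theorem pt_non' (a : K) (ha : a ∈ A.nonunits) : algebraMap K F a ∈ (Wc h A v).nonunits :=
  (algebraMap_mem_Wc_nonunits h A v).2 ha

/-- every element of `Wc` is congruent to a constant of `A`. -/
theorem pt_const (z : F) (hz : z ∈ Wc h A v) :
    ∃ a ∈ A, z - algebraMap K F a ∈ (Wc h A v).nonunits := by
  obtain ⟨h1, h2⟩ := hz
  refine ⟨valAt h v z, h2, ?_⟩
  rw [mem_Wc_nonunits]
  refine ⟨sub_mem h1 (v.algebraMap_mem' _), ?_⟩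
  rw [valAt_sub h v h1 (v.algebraMap_mem' _), valAt_algebraMap, sub_self]
  exact Fermat.Agent.S18.zero_mem_nonunits A

theorem pt_sub_mem_nonunits_iff {G : F} {γ : K} :
    G - algebraMap K F γ ∈ (Wc h A v).nonunits ↔
      G ∈ v.toValuationSubring ∧ valAt h v G - γ ∈ A.nonunits := by
  rw [mem_Wc_nonunits]
  constructor
  · rintro ⟨h1, h2⟩
    have hG : G ∈ v.toValuationSubring := by
      have := add_mem h1 (v.algebraMap_mem' γ)
      rwa [sub_add_cancel] at this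
    refine ⟨hG, ?_⟩
    rwa [valAt_sub h v hG (v.algebraMap_mem' _), valAt_algebraMap] at h2
  · rintro ⟨hG, h2⟩
    refine ⟨sub_mem hG (v.algebraMap_mem' _), ?_⟩
    rwa [valAt_sub h v hG (v.algebraMap_mem' _), valAt_algebraMap]

theorem pt_nearAt_iff {Γ : Finset K} {G : F} :
    EV.NearAt h A Γ v G ↔ ∃ γ ∈ Γ, G - algebraMap K F γ ∈ (Wc h A v).nonunits := by
  constructor
  · rintro ⟨hG, γ, hγ, h2⟩
    exact ⟨γ, hγ, (pt_sub_mem_nonunits_iff h A v).2 ⟨hG, h2⟩⟩
  · rintro ⟨γ, hγ, h2⟩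
    obtain ⟨hG, h3⟩ := (pt_sub_mem_nonunits_iff h A v).1 h2
    exact ⟨hG, γ, hγ, h3⟩

end Fermat.Agent.S33.Move
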