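import Fermat.Agent.S19.Move.Defs
import Fermat.Agent.S33.N4.Interp

set_option autoImplicit false
set_option linter.unusedSectionVars false

/-!
# S33 / Move / Res : residues of local units at the points of a residue class   (leaf M6 = K5)

`W` : a "point-like" valuation ring of `L` (the composite of a place `v` of `L / K'` and of `A`): every element of `W` is congruent to a constant of `A`.
-/

noncomputable section

namespace Fermat.Agent.S33.Move

open Polynomial Fermat.Agent.S18 Fermat.Agent.S34 Fermat.Agent.S19.Move Fermat.Agent.S33.N4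

/-- the valuation ring `W` of `L` is the composite of a rational place and of `A`. -/
structure PtLike {K' L : Type} [Field K'] [Field L] [Algebra K' L] (A : ValuationSubring K')
    (W : ValuationSubring L) : Prop where
  mem : ∀ a ∈ A, algebraMap K' L a ∈ W
  non : ∀ a, algebraMap K' L a ∈ W.nonunits → a ∈ A.nonunits
  non' : ∀ a ∈ A.nonunits, algebraMap K' L a ∈ W.nonunits
  const : ∀ z ∈ W, ∃ a ∈ A, z - algebraMap K' L a ∈ W.nonunits

section cong

variable {L : Type} [Field L] (W : ValuationSubring L)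

/-- congruent elements of `W`. -/
def Cg (a b : L) : Prop := a ∈ W ∧ b ∈ W ∧ a - b ∈ W.nonunits

variable {W}

theorem Cg.refl {a : L} (ha : a ∈ W) : Cg W a a := ⟨ha, ha, by rw [sub_self]; exact zero_mem_nonunits W⟩

theorem Cg.add {a b c d : L} (h1 : Cg W a b) (h2 : Cg W c d) : Cg W (a + c) (b + d) :=
  ⟨add_mem h1.1 h2.1, add_mem h1.2.1 h2.2.1, by
    have : a + c - (b + d) = (a - b) + (c - d) := by ring
    rw [this]; exact add_mem_nonunits W h1.2.2 h2.2.2⟩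

theorem Cg.mul {a b c d : L} (h1 : Cg W a b) (h2 : Cg W c d) : Cg W (a * c) (b * d) :=
  ⟨mul_mem h1.1 h2.1, mul_mem h1.2.1 h2.2.1, by
    have : a * c - b * d = a * (c - d) + (a - b) * d := by ring
    rw [this]
    exact add_mem_nonunits W (mul_mem_nonunits W h1.1 h2.2.2) (mul_mem_nonunits' W h1.2.2 h2.2.1)⟩

theorem Cg.pow {a b : L} (h : Cg W a b) (k : ℕ) : Cg W (a ^ k) (b ^ k) := by
  induction k with
  | zero => simpa using Cg.refl (one_mem W)
  | succ k ih => rw [pow_succ, pow_succ]; exact ih.mul h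

theorem Cg.symm {a b : L} (h : Cg W a b) : Cg W b a :=
  ⟨h.2.1, h.1, by
    have : b - a = -(a - b) := by ring
    rw [this]; exact neg_mem_nonunits W h.2.2⟩

theorem Cg.trans {a b c : L} (h1 : Cg W a b) (h2 : Cg W b c) : Cg W a c :=
  ⟨h1.1, h2.2.1, by
    have : a - c = (a - b) + (b - c) := by ring
    rw [this]; exact add_mem_nonunits W h1.2.2 h2.2.2⟩

theorem Cg.eval₂ {S : Type} [CommRing S] {φ ψ : S →+* L} (h : ∀ s, Cg W (φ s) (ψ s)) {z z' : L}
    (hz : Cg W z z') (q : S[X]) : Cg W (q.eval₂ φ z) (q.eval₂ ψ z') := by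
  induction q using Polynomial.induction_on' with
  | add p q hp hq => rw [eval₂_add, eval₂_add]; exact hp.add hq
  | monomial k a => rw [eval₂_monomial, eval₂_monomial]; exact (h a).mul (hz.pow k)

end cong

variable {R K F : Type} [CommRing R] [IsDomain R] [IsDiscreteValuationRing R] [Field K] [CharZero K]
  [Algebra R K] [IsFractionRing R K] [Field F] [Algebra K F] {ϖ : R}
  {K' L : Type} [Field K'] [Field L] [Algebra K' L] {A : ValuationSubring K'} {ι : K →+* K'}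
  {j : F →+* L}

/-- `R → K'`. -/
def thetaR (R : Type) {K K' : Type} [CommRing R] [Field K] [Algebra R K] [Field K'] (ι : K →+* K') :
    R →+* K' := ι.comp (algebraMap R K)

theorem j_rE (hj : ∀ c : K, j (algebraMap K F c) = algebraMap K' L (ι c)) (r : R) :
    j (rE R K F r) = algebraMap K' L (thetaR R ι r) := hj _

theorem eval₂_theta_mem (hR : ∀ r : R, ι (algebraMap R K r) ∈ A) {ξ : K'} (hξ : ξ ∈ A) (q : R[X]) :
    q.eval₂ (thetaR R ι) ξ ∈ A := by
  induction q using Polynomial.induction_on' with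
  | add p q hp hq => rw [eval₂_add]; exact A.add_mem _ _ hp hq
  | monomial k a => rw [eval₂_monomial]; exact A.mul_mem _ _ (hR a) (pow_mem hξ k)

/-- values of polynomials in `t`. -/
theorem cg_evR (hj : ∀ c : K, j (algebraMap K F c) = algebraMap K' L (ι c))
    (hR : ∀ r : R, ι (algebraMap R K r) ∈ A) {W : ValuationSubring L} (hW : PtLike A W) {t : F}
    {ξ : K'} (h : Cg W (j t) (algebraMap K' L ξ)) (q : R[X]) :
    Cg W (j (evR R K t q)) (algebraMap K' L (q.eval₂ (thetaR R ι) ξ)) := by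
  have h1 : j (evR R K t q) = q.eval₂ (j.comp (rE R K F)) (j t) := by
    rw [evR, coe_eval₂RingHom, hom_eval₂]
  have h2 : algebraMap K' L (q.eval₂ (thetaR R ι) ξ)
      = q.eval₂ ((algebraMap K' L).comp (thetaR R ι)) (algebraMap K' L ξ) := by
    rw [hom_eval₂]
  rw [h1, h2]
  refine Cg.eval₂ (fun s => ?_) h q
  have : (j.comp (rE R K F)) s = ((algebraMap K' L).comp (thetaR R ι)) s := j_rE hj s
  rw [this]
  exact Cg.refl (hW.mem _ (hR s))

theorem primP_map (hϖ : Irreducible ϖ) (hR : ∀ r : R, ι (algebraMap R K r) ∈ A) {Φ : R[X]}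
    (hΦ : ¬ C ϖ ∣ Φ) : PrimP A (Φ.map (thetaR R ι)) := by
  refine ⟨fun i => by rw [coeff_map]; exact hR _, ?_⟩
  rw [C_dvd_iff_dvd_coeff] at hΦ
  push Not at hΦ
  obtain ⟨i, hi⟩ := hΦ
  refine ⟨i, ?_⟩
  have hu : IsUnit (Φ.coeff i) := by
    by_contra hnu
    have h3 : Φ.coeff i ∈ IsLocalRing.maximalIdeal R := (IsLocalRing.mem_maximalIdeal _).2 hnu
    rw [(IsDiscreteValuationRing.irreducible_iff_uniformizer ϖ).1 hϖ,
      Ideal.mem_span_singleton] at h3
    exact hi h3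
  obtain ⟨b, hb⟩ := hu.exists_right_inv
  rw [coeff_map, ss_mem_nonunits_iff, not_or, not_not]
  have h1 : thetaR R ι (Φ.coeff i) * thetaR R ι b = 1 := by rw [← map_mul, hb, map_one]
  have h0 : thetaR R ι (Φ.coeff i) ≠ 0 := left_ne_zero_of_mul_eq_one h1
  refine ⟨h0, ?_⟩
  rw [← eq_inv_of_mul_eq_one_right h1]
  exact hR b

/-- contrapositive form of `exists_bad_set`. -/
theorem exists_near_set {P : K'[X]} (hP : PrimP A P) :
    ∃ Γ : Finset K', ∀ a ∈ A, P.eval a ∈ A.nonunits → ∃ γ ∈ Γ, a - γ ∈ A.nonunits := by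
  obtain ⟨Γ, hΓ⟩ := exists_bad_set hP
  refine ⟨Γ, fun a ha h => ?_⟩
  by_contra hcon
  push Not at hcon
  exact hΓ a ha hcon h

theorem mem_of_sub_mem_nonunits {a γ : K'} (ha : a ∈ A) (h : a - γ ∈ A.nonunits) : γ ∈ A := by
  have := A.sub_mem ha (mem_of_mem_nonunits A h)
  rwa [sub_sub_cancel] at this

/-- **(R3)**: the values of an element of the chart at the points of the classes `Φ = 0`. -/
theorem exists_res_of_mem_CInt (hϖ : Irreducible ϖ)
    (hj : ∀ c : K, j (algebraMap K F c) = algebraMap K' L (ι c))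
    (hR : ∀ r : R, ι (algebraMap R K r) ∈ A) {t : F} {Φ : R[X]} (hΦ : ¬ C ϖ ∣ Φ) {c : F}
    (hc : c ∈ CInt R K t) :
    ∃ Γ : Finset K', ∀ W : ValuationSubring L, PtLike A W → j t ∈ W →
      j (evR R K t Φ) ∈ W.nonunits → ∃ γ ∈ Γ, γ ∈ A ∧ Cg W (j c) (algebraMap K' L γ) := by
  classical
  obtain ⟨P, hPm, hPc⟩ := hc
  obtain ⟨Ξ, hΞ⟩ := exists_near_set (primP_map (K := K) (A := A) (ι := ι) hϖ hR hΦ)
  have hex : ∀ ξ : K', ∃ Γξ : Finset K', ξ ∈ A → ∀ a ∈ A,
      (P.map (eval₂RingHom (thetaR R ι) ξ)).eval a ∈ A.nonunits → ∃ γ ∈ Γξ, a - γ ∈ A.nonunits := by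
    intro ξ
    by_cases hξ : ξ ∈ A
    · have hprim : PrimP A (P.map (eval₂RingHom (thetaR R ι) ξ)) := by
        refine ⟨fun i => ?_, (P.map (eval₂RingHom (thetaR R ι) ξ)).natDegree, ?_⟩
        · rw [coeff_map, coe_eval₂RingHom]
          exact eval₂_theta_mem hR hξ _
        · have : (P.map (eval₂RingHom (thetaR R ι) ξ)).Monic := hPm.map _
          rw [coeff_natDegree, this.leadingCoeff]
          exact one_notMem_nonunits A
      obtain ⟨Γ, hΓ⟩ := exists_near_set hprim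
      exact ⟨Γ, fun _ => hΓ⟩
    · exact ⟨∅, fun h => absurd h hξ⟩
  choose Γf hΓf using hex
  refine ⟨Ξ.biUnion Γf, fun W hW htW hΦW => ?_⟩
  obtain ⟨at', hat, hat'⟩ := hW.const _ htW
  have hcg0 : Cg W (j t) (algebraMap K' L at') := ⟨htW, hW.mem _ hat, hat'⟩
  -- the class of `t`
  have h1 := cg_evR hj hR hW hcg0 Φ
  have h2 : (Φ.map (thetaR R ι)).eval at' ∈ A.nonunits := by
    apply hW.non
    rw [eval_map]
    have := sub_mem_nonunits W hΦW h1.2.2
    rwa [sub_sub_cancel] at this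
  obtain ⟨ξ, hξΞ, hξ⟩ := hΞ at' hat h2
  have hξA : ξ ∈ A := mem_of_sub_mem_nonunits hat hξ
  have hcg1 : Cg W (j t) (algebraMap K' L ξ) := by
    refine hcg0.trans ⟨hW.mem _ hat, hW.mem _ hξA, ?_⟩
    rw [← map_sub]
    exact hW.non' _ hξ
  -- the class of `c`
  have hevW : ∀ q : R[X], j (evR R K t q) ∈ W := fun q => (cg_evR hj hR hW hcg1 q).1
  have hcW : j c ∈ W := by
    refine mem_of_isIntegralElem W (j.comp (evR R K t)) hevW ⟨P, hPm, ?_⟩
    rw [← hom_eval₂, hPc, map_zero]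
  obtain ⟨ac, hac, hac'⟩ := hW.const _ hcW
  have hcg2 : Cg W (j c) (algebraMap K' L ac) := ⟨hcW, hW.mem _ hac, hac'⟩
  have h3 : Cg W (P.eval₂ (j.comp (evR R K t)) (j c))
      (P.eval₂ ((algebraMap K' L).comp (eval₂RingHom (thetaR R ι) ξ)) (algebraMap K' L ac)) :=
    Cg.eval₂ (fun q => cg_evR hj hR hW hcg1 q) hcg2 P
  rw [← hom_eval₂, hPc, map_zero, ← hom_eval₂] at h3
  have h4 : (P.map (eval₂RingHom (thetaR R ι) ξ)).eval ac ∈ A.nonunits := by
    apply hW.non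
    rw [eval_map]
    have := neg_mem_nonunits W h3.2.2
    rwa [zero_sub, neg_neg] at this
  obtain ⟨γ, hγ, hγ'⟩ := hΓf ξ hξA ac hac h4
  have hγA : γ ∈ A := mem_of_sub_mem_nonunits hac hγ'
  refine ⟨γ, Finset.mem_biUnion.2 ⟨ξ, hξΞ, hγ⟩, hγA, hcg2.trans ⟨hW.mem _ hac, hW.mem _ hγA, ?_⟩⟩
  rw [← map_sub]
  exact hW.non' _ hγ'

/-- a unit of `A`. -/
theorem inv_mem_of_notMem_nonunits {γ : K'} (h : γ ∉ A.nonunits) : γ ≠ 0 ∧ γ⁻¹ ∈ A := by
  rw [ss_mem_nonunits_iff, not_or, not_not] at h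
  exact h

theorem comap_nonunits_iff (W : ValuationSubring L) (z : F) :
    z ∈ (W.comap j).nonunits ↔ j z ∈ W.nonunits := by
  rw [ss_mem_nonunits_iff, ss_mem_nonunits_iff, ValuationSubring.mem_comap, map_inv₀, map_eq_zero]

/-- **(M6)**. -/
theorem exists_Gamma (hϖ : Irreducible ϖ)
    (hj : ∀ c : K, j (algebraMap K F c) = algebraMap K' L (ι c))
    (hR : ∀ r : R, ι (algebraMap R K r) ∈ A) (hϖA : ι (algebraMap R K ϖ) ∈ A.nonunits)
    {t : F} {Φ : R[X]} (hΦ : ¬ C ϖ ∣ Φ) (Z : Finset (Ideal (CInt R K t)))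
    (hZ : ∀ n : Ideal (CInt R K t), n.IsPrime → unifC t ϖ ∈ n → evC t Φ ∈ n → n ∈ Z)
    (G : F) (hG : ∀ n ∈ Z, LocUnit n G) :
    ∃ Γ : Finset K', (∀ γ ∈ Γ, γ ∈ A ∧ γ ∉ A.nonunits) ∧
      ∀ W : ValuationSubring L, PtLike A W → j t ∈ W → j (evR R K t Φ) ∈ W.nonunits →
        ∃ γ ∈ Γ, j G - algebraMap K' L γ ∈ W.nonunits := by
  classical
  -- local fractions
  have hfr : ∀ n : Ideal (CInt R K t), ∃ Γn : Finset K', n ∈ Z → n.IsPrime →
      ∀ W : ValuationSubring L, PtLike A W → j t ∈ W → j (evR R K t Φ) ∈ W.nonunits →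
        (∀ c : CInt R K t, c ∉ n → j (c : F) ∉ W.nonunits) →
        ∃ γ ∈ Γn, (γ ∈ A ∧ γ ∉ A.nonunits) ∧ j G - algebraMap K' L γ ∈ W.nonunits := by
    intro n
    by_cases hn : n ∈ Z
    · obtain ⟨hG0, ⟨d, hd, hdG⟩, ⟨e, he, heG⟩⟩ := hG n hn
      obtain ⟨Γc, hΓc⟩ := exists_res_of_mem_CInt (A := A) (ι := ι) (j := j) hϖ hj hR hΦ hdG
      obtain ⟨Γd, hΓd⟩ := exists_res_of_mem_CInt (A := A) (ι := ι) (j := j) hϖ hj hR hΦ d.2
      refine ⟨(Γc ×ˢ Γd).image (fun x => x.1 / x.2), fun _ hnp W hW htW hΦW hcen => ?_⟩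
      have hcn : (⟨(d : F) * G, hdG⟩ : CInt R K t) ∉ n := by
        intro hmem
        have h1 : (⟨(e : F) * G⁻¹, heG⟩ : CInt R K t) * ⟨(d : F) * G, hdG⟩ = e * d := by
          apply Subtype.ext
          show (e : F) * G⁻¹ * ((d : F) * G) = (e : F) * (d : F)
          field_simp
        have h2 : e * d ∈ n := h1 ▸ n.mul_mem_left _ hmem
        exact (hnp.mem_or_mem h2).elim he hd
      obtain ⟨γ, hγ, hγA, hcgc⟩ := hΓc W hW htW hΦW
      obtain ⟨γ', hγ', hγA', hcgd⟩ := hΓd W hW htW hΦW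
      have hu1 : j ((d : F) * G) ∉ W.nonunits := hcen ⟨_, hdG⟩ hcn
      have hu2 : j (d : F) ∉ W.nonunits := hcen d hd
      have hγu : γ ∉ A.nonunits := fun h =>
        ss_notMem_of_sub W hu1 hcgc.2.2 (hW.non' _ h)
      have hγu' : γ' ∉ A.nonunits := fun h =>
        ss_notMem_of_sub W hu2 hcgd.2.2 (hW.non' _ h)
      obtain ⟨hγ0', hγi'⟩ := inv_mem_of_notMem_nonunits hγu'
      obtain ⟨hγ0, hγi⟩ := inv_mem_of_notMem_nonunits hγu
      obtain ⟨hd0, hdi⟩ := inv_mem_of_notMem_nonunits hu2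
      refine ⟨γ / γ', Finset.mem_image.2 ⟨(γ, γ'), Finset.mem_product.2 ⟨hγ, hγ'⟩, rfl⟩,
        ⟨by rw [div_eq_mul_inv]; exact A.mul_mem _ _ hγA hγi', ?_⟩, ?_⟩
      · rw [ss_mem_nonunits_iff, not_or, not_not]
        refine ⟨div_ne_zero hγ0 hγ0', ?_⟩
        rw [inv_div, div_eq_mul_inv]
        exact A.mul_mem _ _ hγA' hγi
      · have hg0 : algebraMap K' L γ' ≠ 0 := (_root_.map_ne_zero _).2 hγ0'
        have e1 : j G - algebraMap K' L (γ / γ')
            = ((j ((d : F) * G) - algebraMap K' L γ) * algebraMap K' L γ'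
                - algebraMap K' L γ * (j (d : F) - algebraMap K' L γ'))
              * ((j (d : F))⁻¹ * algebraMap K' L γ'⁻¹) := by
          rw [map_mul, map_div₀, map_inv₀]
          field_simp
          ring
        rw [e1]
        refine mul_mem_nonunits' W (sub_mem_nonunits W
          (mul_mem_nonunits' W hcgc.2.2 hcgd.2.1) (mul_mem_nonunits W hcgc.2.1 hcgd.2.2))
          (mul_mem hdi (hW.mem _ hγi'))
    · exact ⟨∅, fun h => absurd h hn⟩
  choose Γf hΓf using hfr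
  refine ⟨(Z.biUnion Γf).filter (fun γ => γ ∈ A ∧ γ ∉ A.nonunits),
    fun γ hγ => (Finset.mem_filter.1 hγ).2, fun W hW htW hΦW => ?_⟩
  -- the centre of `W`
  obtain ⟨at', hat, hat'⟩ := hW.const _ htW
  have hcg0 : Cg W (j t) (algebraMap K' L at') := ⟨htW, hW.mem _ hat, hat'⟩
  have hevW : ∀ q : R[X], j (evR R K t q) ∈ W := fun q => (cg_evR hj hR hW hcg0 q).1
  have hC : ∀ c ∈ CInt R K t, c ∈ W.comap j := by
    rintro c ⟨P, hPm, hPc⟩
    refine mem_of_isIntegralElem W (j.comp (evR R K t)) hevW ⟨P, hPm, ?_⟩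
    rw [← hom_eval₂, hPc, map_zero]
  have hprime := cen_isPrime (W.comap j) hC
  have hmemZ : cen (W.comap j) hC ∈ Z := by
    refine hZ _ hprime ?_ ?_
    · rw [mem_cen, comap_nonunits_iff]
      show j (rE R K F ϖ) ∈ W.nonunits
      rw [j_rE hj]
      exact hW.non' _ hϖA
    · rw [mem_cen, comap_nonunits_iff]
      exact hΦW
  obtain ⟨γ, hγ, hγ1, hγ2⟩ := hΓf _ hmemZ hprime W hW htW hΦW (fun c hc h => hc (by
    rw [mem_cen, comap_nonunits_iff]; exact h))
  exact ⟨γ, Finset.mem_filter.2 ⟨Finset.mem_biUnion.2 ⟨_, hmemZ, hγ⟩, hγ1⟩, hγ2⟩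

end Fermat.Agent.S33.Move
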