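import Fermat.Agent.S33.Move.Abs
import Fermat.Agent.S34.LF

set_option autoImplicit false
set_option linter.unusedSectionVars false
set_option linter.style.haveILetI false

/-!
# S33 / Move / Two : the semi-local move for finitely many closed points of BOTH charts `x`, `x⁻¹`
-/

noncomputable section

namespace Fermat.Agent.S33.Move

open Polynomial IntermediateField Fermat.Agent.S18 Fermat.Agent.S34

variable {R K F : Type} [CommRing R] [IsDomain R] [IsDiscreteValuationRing R] [Field K] [CharZero K]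
  [Algebra R K] [IsFractionRing R K] [Field F] [Algebra K F]

theorem inMax_of_mem {t : F} {n : Ideal (CInt R K t)} [n.IsPrime] {c : CInt R K t} (hc : c ∈ n) :
    InMax n (c : F) := ⟨1, loc_one_notMem n, c, hc, by simp⟩

theorem inMax_zero {t : F} (n : Ideal (CInt R K t)) [n.IsPrime] : InMax n (0 : F) :=
  ⟨1, loc_one_notMem n, 0, n.zero_mem, by simp⟩

theorem exists_mem_notMem {t : F} {n n' : Ideal (CInt R K t)} (hn : n.IsMaximal)
    (hn' : n'.IsMaximal) (h : n ≠ n') : ∃ e : CInt R K t, e ∈ n' ∧ e ∉ n := by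
  by_contra hcon
  push_neg at hcon
  exact h (hn'.eq_of_le hn.ne_top hcon).symm

/-- the index set: maximal ideals of the two charts. -/
abbrev Pts (R K : Type) {F : Type} [CommRing R] [Field K] [Algebra R K] [Field F] [Algebra K F]
    (x : F) : Type :=
  {n : Ideal (CInt R K x) // n.IsMaximal} ⊕ {n : Ideal (CInt R K x⁻¹) // n.IsMaximal}

/-- the local rings. -/
def ptO (x : F) : Pts R K x → Subring F
  | Sum.inl n => haveI := n.2.isPrime; Oloc n.1
  | Sum.inr n => haveI := n.2.isPrime; Oloc n.1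

/-- the maximal ideals. -/
def ptM (x : F) : Pts R K x → F → Prop
  | Sum.inl n => InMax n.1
  | Sum.inr n => InMax n.1

theorem move_two_aux {x : F} (hx : x ≠ 0) (Z : Finset (Pts R K x))
    (P : R[X]) (hP : P.Monic) (hdeg : 1 ≤ P.natDegree)
    (hP1 : ∀ n, Sum.inl n ∈ Z → InMax n.1 (evR R K x P - 1))
    (hinf : ∀ n, Sum.inr n ∈ Z → InMax n.1 x⁻¹)
    (m : ℕ) (hm : m ≠ 0) (G : F) (u l : Pts R K x → F) (hl : ∀ k ∈ Z, l k ≠ 0)
    (hu0 : ∀ k ∈ Z, u k ≠ 0)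
    (hu : ∀ k ∈ Z, u k ∈ ptO x k) (hu' : ∀ k ∈ Z, (u k)⁻¹ ∈ ptO x k)
    (hG : ∀ k ∈ Z, G = u k * l k ^ m) :
    ∃ H : F, H ≠ 0 ∧ ∀ k ∈ Z, G / H ^ m ∈ ptO x k ∧ (G / H ^ m)⁻¹ ∈ ptO x k := by
  classical
  set k := P.natDegree with hk
  set Px : F := evR R K x P with hPx
  set Ps : F := evR R K x⁻¹ (reflect k P) with hPs
  have hPsx : Px * x⁻¹ ^ k = Ps := evR_mul_inv_pow hx P le_rfl
  set w : F := Px⁻¹ with hw
  set y : F := Ps⁻¹ with hy
  -- chart `x`
  have a1 : ∀ n, Sum.inl n ∈ Z → LocUnit n.1 Px := by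
    intro n hn
    haveI := n.2.isPrime
    have := LocUnit.one_add (hP1 n hn)
    rwa [add_sub_cancel] at this
  -- chart `x⁻¹`
  have hPs1 : ∃ S : R[X], Ps - 1 = x⁻¹ * evR R K x⁻¹ S := by
    have h0 : (reflect k P).coeff 0 = 1 := by
      rw [coeff_reflect, revAt_le (Nat.zero_le k), Nat.sub_zero]
      exact hP.coeff_natDegree
    obtain ⟨S, hS⟩ := X_dvd_sub_C (p := reflect k P)
    refine ⟨S, ?_⟩
    have := congrArg (evR R K x⁻¹) hS
    rw [h0, map_sub, map_mul, evR_X, map_one, map_one] at this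
    exact this
  have b1 : ∀ n, Sum.inr n ∈ Z → LocUnit n.1 Ps := by
    intro n hn
    haveI := n.2.isPrime
    obtain ⟨S, hS⟩ := hPs1
    have h1 : InMax n.1 (Ps - 1) := by
      rw [hS, mul_comm]
      exact InMax.mul_left (InLoc.of_mem n.1 (evR_mem_CInt _ S)) (hinf n hn)
    have := LocUnit.one_add h1
    rwa [add_sub_cancel] at this
  by_cases hPx0 : Px = 0
  · -- then `Z` has no point in the chart `x`... and none at infinity either
    have hPs0 : Ps = 0 := by rw [← hPsx, hPx0, zero_mul]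
    have hZ : Z = ∅ := by
      apply Finset.eq_empty_of_forall_notMem
      rintro (n | n) hn
      · exact (a1 n hn).1 hPx0
      · exact (b1 n hn).1 hPs0
    subst hZ
    exact ⟨1, one_ne_zero, by simp⟩
  have hPs0 : Ps ≠ 0 := by rw [← hPsx]; exact mul_ne_zero hPx0 (pow_ne_zero _ (inv_ne_zero hx))
  have hw0 : w ≠ 0 := inv_ne_zero hPx0
  have hy0 : y ≠ 0 := inv_ne_zero hPs0
  have hwy : w = x⁻¹ ^ k * y := by
    rw [hw, hy, ← hPsx]
    field_simp
  have hyw : y = x ^ k * w := by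
    rw [hwy, ← mul_assoc, ← mul_pow, mul_inv_cancel₀ hx, one_pow, one_mul]
  -- `w`
  have wO : ∀ j ∈ Z, w ∈ ptO x j := by
    rintro (n | n) hn
    · exact (a1 n hn).2.2
    · haveI := n.2.isPrime
      show InLoc n.1 w
      rw [hwy]
      exact (InLoc.of_mem n.1 (pow_mem (self_mem_CInt _) k)).mul (b1 n hn).2.2
  have yO : ∀ j ∈ Z, y ∈ ptO x j := by
    rintro (n | n) hn
    · haveI := n.2.isPrime
      show InLoc n.1 y
      rw [hyw]
      exact (InLoc.of_mem n.1 (pow_mem (self_mem_CInt _) k)).mul (a1 n hn).2.2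
    · exact (b1 n hn).2.2
  have wM : ∀ n, Sum.inr n ∈ Z → InMax n.1 w := by
    intro n hn
    haveI := n.2.isPrime
    obtain ⟨k', hk'⟩ : ∃ k', k = k' + 1 := ⟨k - 1, by omega⟩
    rw [hwy, hk', pow_succ, mul_assoc, mul_comm x⁻¹ y, ← mul_assoc]
    exact InMax.mul_left ((InLoc.of_mem n.1 (pow_mem (self_mem_CInt _) k')).mul (b1 n hn).2.2)
      (hinf n hn)
  have le_mul : ∀ N : ℕ, N ≤ k * N := fun N => Nat.le_mul_of_pos_left N hdeg
  -- moving elements of the charts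
  have side1 : ∀ c ∈ CInt R K x, ∃ N₀, ∀ N, N₀ ≤ N → ∀ j ∈ Z, w ^ N * c ∈ ptO x j := by
    intro c hc
    obtain ⟨k₀, hk₀⟩ := fin_to_inf_ge hx hc
    refine ⟨k₀, fun N hN => ?_⟩
    rintro (n | n) hn
    · haveI := n.2.isPrime
      exact (InLoc.pow (a1 n hn).2.2 N).mul (InLoc.of_mem n.1 hc)
    · haveI := n.2.isPrime
      show InLoc n.1 (w ^ N * c)
      have e : w ^ N * c = y ^ N * (x⁻¹ ^ (k * N) * c) := by
        rw [hwy, mul_pow, ← pow_mul]; ring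
      rw [e]
      exact (InLoc.pow (b1 n hn).2.2 N).mul (InLoc.of_mem n.1 (hk₀ _ (hN.trans (le_mul N))))
  have side2 : ∀ c ∈ CInt R K x⁻¹, ∃ N₀, ∀ N, N₀ ≤ N → ∀ j ∈ Z, y ^ N * c ∈ ptO x j := by
    intro c hc
    obtain ⟨k₀, hk₀⟩ := fin_to_inf_ge (inv_ne_zero hx) hc
    rw [inv_inv] at hk₀
    refine ⟨k₀, fun N hN => ?_⟩
    rintro (n | n) hn
    · haveI := n.2.isPrime
      show InLoc n.1 (y ^ N * c)
      have e : y ^ N * c = w ^ N * (x ^ (k * N) * c) := by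
        rw [hyw, mul_pow, ← pow_mul]; ring
      rw [e]
      exact (InLoc.pow (a1 n hn).2.2 N).mul (InLoc.of_mem n.1 (hk₀ _ (hN.trans (le_mul N))))
    · haveI := n.2.isPrime
      exact (InLoc.pow (b1 n hn).2.2 N).mul (InLoc.of_mem n.1 hc)
  refine semi_move Z (ptO x) (ptM x) ?_ ?_ ?_ ?_ m hm ?_ ?_ ?_ G u l hl hu0 hu hu' hG
  · rintro (n | n)
    · haveI := n.2.isPrime; exact inMax_zero n.1
    · haveI := n.2.isPrime; exact inMax_zero n.1
  · rintro (n | n) a b ha hb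
    · haveI := n.2.isPrime; exact InMax.add ha hb
    · haveI := n.2.isPrime; exact InMax.add ha hb
  · rintro (n | n) a b ha hb
    · haveI := n.2.isPrime; exact InMax.mul_left ha hb
    · haveI := n.2.isPrime; exact InMax.mul_left ha hb
  · rintro (n | n) a ha
    · haveI := n.2.isPrime; exact LocUnit.one_add ha
    · haveI := n.2.isPrime; exact LocUnit.one_add ha
  · rintro (n | n) z hz
    · haveI := n.2.isPrime; exact InLoc.of_pow hm hz
    · haveI := n.2.isPrime; exact InLoc.of_pow hm hz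
  · -- denominators
    rintro (n | n) hn a ha
    · haveI := n.2.isPrime
      obtain ⟨d₀, hd₀, hda⟩ := ha
      obtain ⟨N₁, hN₁⟩ := side1 _ d₀.2
      obtain ⟨N₂, hN₂⟩ := side1 _ hda
      set N := max N₁ N₂
      refine ⟨w ^ N * d₀, mul_ne_zero (pow_ne_zero _ hw0) (lf_ne_zero hd₀),
        hN₁ N (le_max_left _ _), ?_, fun j hj => ?_⟩
      · show InLoc n.1 (w ^ N * (d₀ : F))⁻¹
        rw [mul_inv, ← inv_pow, hw, inv_inv]
        exact (InLoc.pow (a1 n hn).2.1 N).mul (lf_inv_inLoc hd₀)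
      · rw [mul_assoc]
        exact hN₂ N (le_max_right _ _) j hj
    · haveI := n.2.isPrime
      obtain ⟨d₀, hd₀, hda⟩ := ha
      obtain ⟨N₁, hN₁⟩ := side2 _ d₀.2
      obtain ⟨N₂, hN₂⟩ := side2 _ hda
      set N := max N₁ N₂
      refine ⟨y ^ N * d₀, mul_ne_zero (pow_ne_zero _ hy0) (lf_ne_zero hd₀),
        hN₁ N (le_max_left _ _), ?_, fun j hj => ?_⟩
      · show InLoc n.1 (y ^ N * (d₀ : F))⁻¹
        rw [mul_inv, ← inv_pow, hy, inv_inv]
        exact (InLoc.pow (b1 n hn).2.1 N).mul (lf_inv_inLoc hd₀)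
      · rw [mul_assoc]
        exact hN₂ N (le_max_right _ _) j hj
  · -- separation
    rintro (n | n) hn (n' | n') hn' hne
    · haveI := n.2.isPrime
      haveI := n'.2.isPrime
      have hne' : n.1 ≠ n'.1 := fun h => hne (congrArg Sum.inl (Subtype.ext h))
      obtain ⟨e₀, he₀, he₀'⟩ := exists_mem_notMem n.2 n'.2 hne'
      obtain ⟨N, hN⟩ := side1 _ e₀.2
      refine ⟨w ^ N * e₀, mul_ne_zero (pow_ne_zero _ hw0) (lf_ne_zero he₀'), hN N le_rfl, ?_, ?_⟩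
      · show InLoc n.1 (w ^ N * (e₀ : F))⁻¹
        rw [mul_inv, ← inv_pow, hw, inv_inv]
        exact (InLoc.pow (a1 n hn).2.1 N).mul (lf_inv_inLoc he₀')
      · exact InMax.mul_left (InLoc.pow (a1 n' hn').2.2 N) (inMax_of_mem he₀)
    · haveI := n.2.isPrime
      refine ⟨w, hw0, wO, ?_, wM n' hn'⟩
      show InLoc n.1 w⁻¹
      rw [hw, inv_inv]
      exact (a1 n hn).2.1
    · haveI := n.2.isPrime
      haveI := n'.2.isPrime
      have h1 : InMax n.1 (-1 * w) :=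
        InMax.mul_left (InLoc.of_mem n.1 (CInt R K x⁻¹).one_mem).neg (wM n hn)
      have h2 := LocUnit.one_add h1
      refine ⟨1 + -1 * w, h2.1, fun j hj => ?_, h2.2.2, ?_⟩
      · exact (ptO x j).add_mem (ptO x j).one_mem
          ((ptO x j).mul_mem ((ptO x j).neg_mem (ptO x j).one_mem) (wO j hj))
      · have e : 1 + -1 * w = w * (Px - 1) := by
          rw [hw]; field_simp; ring
        show InMax n'.1 (1 + -1 * w)
        rw [e]
        exact InMax.mul_left (a1 n' hn').2.2 (hP1 n' hn')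
    · haveI := n.2.isPrime
      haveI := n'.2.isPrime
      have hne' : n.1 ≠ n'.1 := fun h => hne (congrArg Sum.inr (Subtype.ext h))
      obtain ⟨e₀, he₀, he₀'⟩ := exists_mem_notMem n.2 n'.2 hne'
      obtain ⟨N, hN⟩ := side2 _ e₀.2
      refine ⟨y ^ N * e₀, mul_ne_zero (pow_ne_zero _ hy0) (lf_ne_zero he₀'), hN N le_rfl, ?_, ?_⟩
      · show InLoc n.1 (y ^ N * (e₀ : F))⁻¹
        rw [mul_inv, ← inv_pow, hy, inv_inv]
        exact (InLoc.pow (b1 n hn).2.1 N).mul (lf_inv_inLoc he₀')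
      · exact InMax.mul_left (InLoc.pow (b1 n' hn').2.2 N) (inMax_of_mem he₀)

/-- **the two-chart move**. -/
theorem move_two {x : F} (hx : x ≠ 0) (Z₁ : Finset (Ideal (CInt R K x)))
    (Z₂ : Finset (Ideal (CInt R K x⁻¹))) (h₁ : ∀ n ∈ Z₁, n.IsMaximal) (h₂ : ∀ n ∈ Z₂, n.IsMaximal)
    (hq : ∀ n ∈ Z₁, ∃ q : R[X], q.Monic ∧ InMax n (evR R K x q))
    (hinf : ∀ n ∈ Z₂, InMax n x⁻¹) (m : ℕ) (hm : m ≠ 0) (G : F)
    (hG₁ : ∀ n ∈ Z₁, ∃ u l : F, l ≠ 0 ∧ LocUnit n u ∧ G = u * l ^ m)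
    (hG₂ : ∀ n ∈ Z₂, ∃ u l : F, l ≠ 0 ∧ LocUnit n u ∧ G = u * l ^ m) :
    ∃ H : F, H ≠ 0 ∧ (∀ n ∈ Z₁, LocUnit n (G / H ^ m)) ∧ ∀ n ∈ Z₂, LocUnit n (G / H ^ m) := by
  classical
  set Z : Finset (Pts R K x) :=
    (Z₁.subtype fun n => n.IsMaximal).disjSum (Z₂.subtype fun n => n.IsMaximal) with hZ
  have mem1 : ∀ n : {n : Ideal (CInt R K x) // n.IsMaximal}, Sum.inl n ∈ Z ↔ n.1 ∈ Z₁ := by
    intro n
    rw [hZ, Finset.inl_mem_disjSum, Finset.mem_subtype]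
  have mem2 : ∀ n : {n : Ideal (CInt R K x⁻¹) // n.IsMaximal}, Sum.inr n ∈ Z ↔ n.1 ∈ Z₂ := by
    intro n
    rw [hZ, Finset.inr_mem_disjSum, Finset.mem_subtype]
  -- the polynomial
  have hq' : ∀ n : Ideal (CInt R K x), ∃ q : R[X], q.Monic ∧ (n ∈ Z₁ → InMax n (evR R K x q)) := by
    intro n
    by_cases hn : n ∈ Z₁
    · obtain ⟨q, h1, h2⟩ := hq n hn
      exact ⟨q, h1, fun _ => h2⟩
    · exact ⟨1, monic_one, fun h => absurd h hn⟩
  choose q hqm hqn using hq'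
  set Q : R[X] := ∏ n ∈ Z₁, q n with hQ
  have hQm : Q.Monic := monic_prod_of_monic _ _ fun n _ => hqm n
  have hXQ : (X * Q).Monic := monic_X.mul hQm
  have hXQd : (X * Q).natDegree = 1 + Q.natDegree := by
    rw [monic_X.natDegree_mul hQm, natDegree_X]
  have hlt : (1 : R[X]).degree < (X * Q).degree := by
    rw [degree_one, degree_eq_natDegree hXQ.ne_zero, hXQd]
    exact_mod_cast Nat.succ_le_iff.1 (by omega)
  have hPm : (X * Q + 1).Monic := hXQ.add_of_left hlt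
  have hPd : 1 ≤ (X * Q + 1).natDegree := by
    rw [natDegree_add_eq_left_of_degree_lt hlt, hXQd]
    omega
  have hP1 : ∀ n : {n : Ideal (CInt R K x) // n.IsMaximal}, Sum.inl n ∈ Z →
      InMax n.1 (evR R K x (X * Q + 1) - 1) := by
    intro n hn
    haveI := n.2.isPrime
    have hn' := (mem1 n).1 hn
    have e : evR R K x (X * Q + 1) - 1
        = evR R K x (X * ∏ n' ∈ Z₁.erase n.1, q n') * evR R K x (q n.1) := by
      rw [← map_mul, mul_assoc, Finset.prod_erase_mul _ _ hn', map_add, map_one, add_sub_cancel_right]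
    rw [e]
    exact InMax.mul_left (InLoc.of_mem n.1 (evR_mem_CInt _ _)) (hqn n.1 hn')
  -- the local data
  have hdata : ∀ k : Pts R K x, ∃ u l : F, k ∈ Z →
      (l ≠ 0 ∧ u ≠ 0 ∧ u ∈ ptO x k ∧ u⁻¹ ∈ ptO x k ∧ G = u * l ^ m) := by
    rintro (n | n)
    · by_cases hn : n.1 ∈ Z₁
      · obtain ⟨u, l, a, b, c⟩ := hG₁ n.1 hn
        exact ⟨u, l, fun _ => ⟨a, b.1, b.2.1, b.2.2, c⟩⟩
      · exact ⟨0, 0, fun h => absurd ((mem1 n).1 h) hn⟩
    · by_cases hn : n.1 ∈ Z₂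
      · obtain ⟨u, l, a, b, c⟩ := hG₂ n.1 hn
        exact ⟨u, l, fun _ => ⟨a, b.1, b.2.1, b.2.2, c⟩⟩
      · exact ⟨0, 0, fun h => absurd ((mem2 n).1 h) hn⟩
  choose u l hul using hdata
  obtain ⟨H, hH0, hH⟩ := move_two_aux hx Z (X * Q + 1) hPm hPd hP1
    (fun n hn => hinf n.1 ((mem2 n).1 hn)) m hm G u l (fun k hk => (hul k hk).1)
    (fun k hk => (hul k hk).2.1) (fun k hk => (hul k hk).2.2.1) (fun k hk => (hul k hk).2.2.2.1)
    (fun k hk => (hul k hk).2.2.2.2)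
  refine ⟨H, hH0, fun n hn => ?_, fun n hn => ?_⟩
  · have hk : (Sum.inl ⟨n, h₁ n hn⟩ : Pts R K x) ∈ Z := (mem1 ⟨n, h₁ n hn⟩).2 hn
    have hG0 : G ≠ 0 := by
      rw [(hul _ hk).2.2.2.2]
      exact mul_ne_zero (hul _ hk).2.1 (pow_ne_zero _ (hul _ hk).1)
    exact ⟨div_ne_zero hG0 (pow_ne_zero _ hH0), (hH _ hk).1, (hH _ hk).2⟩
  · have hk : (Sum.inr ⟨n, h₂ n hn⟩ : Pts R K x) ∈ Z := (mem2 ⟨n, h₂ n hn⟩).2 hn
    have hG0 : G ≠ 0 := by
      rw [(hul _ hk).2.2.2.2]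
      exact mul_ne_zero (hul _ hk).2.1 (pow_ne_zero _ (hul _ hk).1)
    exact ⟨div_ne_zero hG0 (pow_ne_zero _ hH0), (hH _ hk).1, (hH _ hk).2⟩

/-- a closed point containing `Φ(t)`, `Φ` non-zero mod `ϖ`, contains `q(t)` for a monic `q`. -/
theorem exists_monic_of_prim {ϖ : R} (hϖ : Irreducible ϖ) {t : F} {n : Ideal (CInt R K t)}
    [n.IsPrime] (hn : unifC t ϖ ∈ n) {Φ : R[X]} (hΦ : ¬ C ϖ ∣ Φ)
    (h : InMax n (evR R K t Φ)) : ∃ q : R[X], q.Monic ∧ InMax n (evR R K t q) := by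
  set res := IsLocalRing.residue R with hres
  have hker : ∀ a : R, res a = 0 → ϖ ∣ a := by
    intro a ha
    rw [hres, IsLocalRing.residue_eq_zero_iff, hϖ.maximalIdeal_eq, Ideal.mem_span_singleton] at ha
    exact ha
  have hmap : ∀ Ψ : R[X], Ψ.map res = 0 → C ϖ ∣ Ψ := by
    intro Ψ hΨ
    rw [C_dvd_iff_dvd_coeff]
    intro i
    apply hker
    rw [← coeff_map, hΨ, coeff_zero]
  have hΦ0 : Φ.map res ≠ 0 := fun h0 => hΦ (hmap Φ h0)
  have hmon : (Φ.map res * C (Φ.map res).leadingCoeff⁻¹).Monic := monic_mul_leadingCoeff_inv hΦ0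
  have hsurj : Function.Surjective res := IsLocalRing.residue_surjective
  obtain ⟨a, ha⟩ := hsurj (Φ.map res).leadingCoeff⁻¹
  have hl : Φ.map res * C (Φ.map res).leadingCoeff⁻¹ ∈ lifts res := by
    rw [mem_lifts]
    exact ⟨Φ * C a, by rw [Polynomial.map_mul, map_C, ha]⟩
  obtain ⟨q, hq, -, hqm⟩ := lifts_and_natDegree_eq_and_monic hl hmon
  obtain ⟨Ψ, hΨ⟩ := hmap (q - Φ * C a) (by
    rw [Polynomial.map_sub, hq, Polynomial.map_mul, map_C, ha, sub_self])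
  refine ⟨q, hqm, ?_⟩
  have e : q = C a * Φ + Ψ * C ϖ := by
    rw [mul_comm Ψ, ← hΨ]; ring
  rw [e, map_add, map_mul, map_mul]
  refine InMax.add (InMax.mul_left (InLoc.of_mem n (evR_mem_CInt _ _)) h)
    (InMax.mul_left (InLoc.of_mem n (evR_mem_CInt _ _)) ?_)
  rw [evR_C]
  exact inMax_of_mem hn

end Fermat.Agent.S33.Move
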