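import Fermat.Agent.S33.Move.Res
import Fermat.Agent.S33.Move.Fin
import Fermat.Agent.S24.Principal

set_option autoImplicit false
set_option linter.unusedSectionVars false

/-!
# S33 / Move / KeyAbs : the key statement, abstract form (two-branch model, point-like valuation rings)
-/

noncomputable section

namespace Fermat.Agent.S33.Move

open Polynomial IntermediateField Fermat.Agent.S18 Fermat.Agent.S34 Fermat.Agent.S19.Move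

variable {R K F : Type} [CommRing R] [IsDomain R] [IsDiscreteValuationRing R] [Field K] [CharZero K]
  [Algebra R K] [IsFractionRing R K] [Field F] [Algebra K F] {ϖ : R}
  {x : F} {Vi V0 : ValuationSubring F}
  {K' L : Type} [Field K'] [Field L] [Algebra K' L] {A : ValuationSubring K'} {ι : K →+* K'}
  {j : F →+* L}

/-- the two-chart semi-local move, as a statement. -/
def MoveTwo (R K : Type) {F : Type} [CommRing R] [Field K] [Algebra R K] [Field F] [Algebra K F]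
    (ϖ : R) (x : F) (m : ℕ) (G : F) : Prop :=
  ∀ (Φ : R[X]), ¬ C ϖ ∣ Φ → ∀ (Z₁ : Finset (Ideal (CInt R K x))) (Z₂ : Finset (Ideal (CInt R K x⁻¹))),
    (∀ n ∈ Z₁, n.IsMaximal ∧ unifC x ϖ ∈ n ∧ evC x Φ ∈ n) →
    (∀ n ∈ Z₂, n.IsMaximal ∧ unifC x⁻¹ ϖ ∈ n ∧ InMax n x⁻¹) →
    (∀ n ∈ Z₁, ∃ u l : F, l ≠ 0 ∧ LocUnit n u ∧ G = u * l ^ m) →
    (∀ n ∈ Z₂, ∃ u l : F, l ≠ 0 ∧ LocUnit n u ∧ G = u * l ^ m) →
    ∃ H : F, H ≠ 0 ∧ (∀ n ∈ Z₁, LocUnit n (G / H ^ m)) ∧ ∀ n ∈ Z₂, LocUnit n (G / H ^ m)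

theorem not_C_dvd_X (hϖ : Irreducible ϖ) : ¬ C ϖ ∣ (X : R[X]) := by
  intro h
  have h1 := (C_dvd_iff_dvd_coeff _ _).1 h 1
  rw [coeff_X_one] at h1
  exact hϖ.not_isUnit (isUnit_of_dvd_one h1)

theorem key_abs (hϖ : Irreducible ϖ) (hB : Branches (K := K) ϖ x Vi V0)
    (hj : ∀ c : K, j (algebraMap K F c) = algebraMap K' L (ι c))
    (hR : ∀ r : R, ι (algebraMap R K r) ∈ A) (hϖA : ι (algebraMap R K ϖ) ∈ A.nonunits)
    {f1 : F} (hi : f1 ∈ Vi) (h0 : f1 ∈ V0) {m : ℕ} (u : F)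
    (hloc₁ : ∀ n : Ideal (CInt R K x), IsClosedPt ϖ n →
      ∃ e l : F, l ≠ 0 ∧ LocUnit n e ∧ u = e * l ^ m)
    (hloc₂ : ∀ n : Ideal (CInt R K x⁻¹), IsClosedPt ϖ n →
      ∃ e l : F, l ≠ 0 ∧ LocUnit n e ∧ u = e * l ^ m)
    (hmove : MoveTwo R K ϖ x m u) :
    ∃ H : F, H ≠ 0 ∧ ∃ Γ : Finset K', (∀ γ ∈ Γ, γ ∈ A ∧ γ ∉ A.nonunits) ∧
      ∀ W : ValuationSubring L, PtLike A W →
        j f1 ∈ W ∨ ∃ γ ∈ Γ, j (u / H ^ m) - algebraMap K' L γ ∈ W.nonunits := by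
  classical
  obtain ⟨s, hs, hsf⟩ := (hB.inO_iff f1).2 ⟨hi, h0⟩
  have htr' : Transcendental K x⁻¹ := hB.trans' (Or.inr rfl)
  have hfin' : FiniteDimensional K⟮x⁻¹⟯ F := by
    rw [Fermat.Agent.S24.principal_adjoin_inv_eq]; exact hB.fin
  obtain ⟨hf₁, hmax₁⟩ := finite_closed hϖ hB.trans hB.fin hs
  obtain ⟨hf₂, hmax₂⟩ := finite_closed hϖ htr' hfin' (not_C_dvd_X hϖ)
  have hZ₁ : ∀ n, n ∈ hf₁.toFinset ↔ n.IsPrime ∧ unifC x ϖ ∈ n ∧ evC x s ∈ n := fun n => by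
    rw [Set.Finite.mem_toFinset]; rfl
  have hZ₂ : ∀ n, n ∈ hf₂.toFinset ↔ n.IsPrime ∧ unifC x⁻¹ ϖ ∈ n ∧ evC x⁻¹ X ∈ n := fun n => by
    rw [Set.Finite.mem_toFinset]; rfl
  obtain ⟨H, hH, hH₁, hH₂⟩ := hmove s hs hf₁.toFinset hf₂.toFinset
    (fun n hn => by
      obtain ⟨h1, h2, h3⟩ := (hZ₁ n).1 hn
      exact ⟨hmax₁ n h1 h2 h3, h2, h3⟩)
    (fun n hn => by
      obtain ⟨h1, h2, h3⟩ := (hZ₂ n).1 hn
      refine ⟨hmax₂ n h1 h2 h3, h2, ?_⟩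
      have := InMax.of_mem h3
      rwa [coe_evC, evR_X] at this)
    (fun n hn => by
      obtain ⟨h1, h2, h3⟩ := (hZ₁ n).1 hn
      exact hloc₁ n ⟨hmax₁ n h1 h2 h3, h2⟩)
    (fun n hn => by
      obtain ⟨h1, h2, h3⟩ := (hZ₂ n).1 hn
      exact hloc₂ n ⟨hmax₂ n h1 h2 h3, h2⟩)
  obtain ⟨Γ₁, hΓ₁, hk₁⟩ := exists_Gamma (A := A) (ι := ι) (j := j) hϖ hj hR hϖA hs hf₁.toFinset
    (fun n h1 h2 h3 => (hZ₁ n).2 ⟨h1, h2, h3⟩) (u / H ^ m) hH₁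
  obtain ⟨Γ₂, hΓ₂, hk₂⟩ := exists_Gamma (A := A) (ι := ι) (j := j) hϖ hj hR hϖA (not_C_dvd_X hϖ)
    hf₂.toFinset (fun n h1 h2 h3 => (hZ₂ n).2 ⟨h1, h2, h3⟩) (u / H ^ m) hH₂
  refine ⟨H, hH, Γ₁ ∪ Γ₂, fun γ hγ => (Finset.mem_union.1 hγ).elim (hΓ₁ γ) (hΓ₂ γ), fun W hW => ?_⟩
  by_cases hxW : j x ∈ W
  · by_cases hsW : j (evR R K x s) ∈ W.nonunits
    · obtain ⟨γ, hγ, h⟩ := hk₁ W hW hxW hsW
      exact Or.inr ⟨γ, Finset.mem_union_left _ hγ, h⟩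
    · left
      obtain ⟨a, ha, ha'⟩ := hW.const _ hxW
      have hcg0 : Cg W (j x) (algebraMap K' L a) := ⟨hxW, hW.mem _ ha, ha'⟩
      have hevW : ∀ q : R[X], j (evR R K x q) ∈ W := fun q => (cg_evR hj hR hW hcg0 q).1
      have h1 : j (evR R K x s * f1) ∈ W := by
        obtain ⟨P, hPm, hPc⟩ := hsf
        refine mem_of_isIntegralElem W (j.comp (evR R K x)) hevW ⟨P, hPm, ?_⟩
        rw [← hom_eval₂, hPc, map_zero]
      obtain ⟨h2, h3⟩ := inv_mem_of_notMem_nonunits hsW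
      have e : j f1 = (j (evR R K x s))⁻¹ * j (evR R K x s * f1) := by
        rw [map_mul, ← mul_assoc, inv_mul_cancel₀ h2, one_mul]
      rw [e]
      exact mul_mem h3 h1
  · right
    have hx' : j x⁻¹ ∈ W.nonunits := by
      rw [ss_mem_nonunits_iff, map_inv₀, inv_inv]
      exact Or.inr hxW
    obtain ⟨γ, hγ, h⟩ := hk₂ W hW (mem_of_mem_nonunits W hx') (by rw [evR_X]; exact hx')
    exact ⟨γ, Finset.mem_union_right _ hγ, h⟩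

end Fermat.Agent.S33.Move
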