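import Fermat.Agent.S34.T0
import Fermat.Agent.S34.DAbs

set_option autoImplicit false

/-!
# S33 / Move / Local : (M1)

For `τ` inertia-like and `g` locally an `m`-th power up to a generic unit (`S34.LocPow`), the quotient
`τ g / g` is, at the closed point `n`, a local unit times an `m`-th power `l ^ m`, where `l = τ h₀ / h₀`
is a unit of both branches.
-/

noncomputable section

namespace Fermat.Agent.S33.Move

open Polynomial IntermediateField Fermat.Agent.S18 Fermat.Agent.S34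

variable {R K F : Type} [CommRing R] [IsDomain R] [IsDiscreteValuationRing R] [Field K] [CharZero K]
  [Algebra R K] [IsFractionRing R K] [Field F] [Algebra K F]
  {ϖ : R} {x : F} {Vi V0 : ValuationSubring F}

/-- `τ ε / ε` is a local unit when `ε` is a generic unit. -/
theorem locUnit_quot_of_genUnit (hϖ : Irreducible ϖ) (hB : Branches (K := K) ϖ x Vi V0)
    {τ : F ≃+* F} (hτ : InertiaLike (R := R) (K := K) x Vi V0 τ)
    {t : F} (ht : t = x ∨ t = x⁻¹) {n : Ideal (CInt R K t)} (hn : IsClosedPt ϖ n) {ε : F}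
    (hε : GenUnit ϖ n ε) : LocUnit n (τ ε / ε) := by
  haveI : n.IsPrime := hn.max.isPrime
  obtain ⟨hε0, k, hk1, hk2⟩ := hε
  have hτε : τ ε ≠ 0 := (map_ne_zero_iff τ τ.injective).2 hε0
  have he0 : τ ε / ε ≠ 0 := div_ne_zero hτε hε0
  have hgen : GenUnit ϖ n (τ ε / ε) := by
    refine ⟨he0, k + k, ?_, ?_⟩
    · have := (t0_inLoc_pow_mul hϖ hB hτ ht hn hk1).mul hk2
      have e : rE R K F ϖ ^ (k + k) * (τ ε / ε)
          = rE R K F ϖ ^ k * τ ε * (rE R K F ϖ ^ k * ε⁻¹) := by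
        rw [pow_add, div_eq_mul_inv]; ring
      rwa [e]
    · have := (t0_inLoc_pow_mul hϖ hB hτ ht hn hk2).mul hk1
      have e : rE R K F ϖ ^ (k + k) * (τ ε / ε)⁻¹
          = rE R K F ϖ ^ k * τ ε⁻¹ * (rE R K F ϖ ^ k * ε) := by
        rw [pow_add, inv_div, div_eq_mul_inv, map_inv₀]; ring
      rwa [e]
  have hui := hτ.unit_i hϖ hB hε0
  have hu0 := hτ.unit_0 hϖ hB hε0
  exact hB.locUnit_of_genUnit hϖ ht hgen hui.1 hui.2 hu0.1 hu0.2

/-- **(M1)**, local form. -/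
theorem m1 (hϖ : Irreducible ϖ) (hB : Branches (K := K) ϖ x Vi V0)
    {τ : F ≃+* F} (hτ : InertiaLike (R := R) (K := K) x Vi V0 τ)
    {t : F} (ht : t = x ∨ t = x⁻¹) {n : Ideal (CInt R K t)} (hn : IsClosedPt ϖ n) {m : ℕ} {g : F}
    (hg : LocPow ϖ n m g) :
    ∃ u l : F, l ≠ 0 ∧ LocUnit n u ∧ τ g / g = u * l ^ m ∧
      (l ∈ Vi ∧ l⁻¹ ∈ Vi) ∧ (l ∈ V0 ∧ l⁻¹ ∈ V0) := by
  obtain ⟨h₀, ε, hh₀, hε, rfl⟩ := hg
  have hτh : τ h₀ ≠ 0 := (map_ne_zero_iff τ τ.injective).2 hh₀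
  refine ⟨τ ε / ε, τ h₀ / h₀, div_ne_zero hτh hh₀, locUnit_quot_of_genUnit hϖ hB hτ ht hn hε, ?_,
    hτ.unit_i hϖ hB hh₀, hτ.unit_0 hϖ hB hh₀⟩
  rw [map_mul, map_pow, mul_div_mul_comm, div_pow]

/-- **(M1)**, from a family of valuations (`S34.locPow_of_valFam`), in the shape used by
`move_chart`. -/
theorem m1_valFam {ι : Type} {w : ι → F → ℤ} (hϖ : Irreducible ϖ)
    (hB : Branches (K := K) ϖ x Vi V0)
    {τ : F ≃+* F} (hτ : InertiaLike (R := R) (K := K) x Vi V0 τ)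
    (hw : ValFam K w) {t : F} (ht : t = x ∨ t = x⁻¹) (htr : Transcendental K t)
    (hfin : FiniteDimensional K⟮t⟯ F) (hint : IntAt K w t) (hSS : SSAt (R := R) (K := K) ϖ t)
    {m : ℕ} {g : F} (hg : g ≠ 0) (hdiv : ∀ i, (m : ℤ) ∣ w i g)
    (hrat : ∀ i, w i g ≠ 0 → RatAt K w i)
    (n : Ideal (CInt R K t)) (hn : IsClosedPt ϖ n) :
    ∃ u l : F, l ≠ 0 ∧ LocUnit n u ∧ τ g / g = u * l ^ m ∧
      (l ∈ Vi ∧ l⁻¹ ∈ Vi) ∧ (l ∈ V0 ∧ l⁻¹ ∈ V0) :=
  m1 hϖ hB hτ ht hn (locPow_of_valFam hϖ hw htr hfin hint hSS hg hdiv hrat n hn)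

end Fermat.Agent.S33.Move
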