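import Mathlib

set_option autoImplicit false

/-!
# S33 / Move / Abs : the semi-local moving lemma (pure algebra)

`F` a field, `(O k)_{k ∈ Z}` finitely many subrings with "maximal ideals" `Mx k`.
If `G = u k * l k ^ m` with `u k` a unit of `O k` for every `k ∈ Z`, then there is ONE `H` with `G / H ^ m` a unit of every `O k`.
The compatibility of the `l k` is automatic: `(l k / l j) ^ m = u j / u k` and the `O j` are `m`-normal.
-/

namespace Fermat.Agent.S33.Move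

open Finset

variable {F : Type*} [Field F] {κ : Type*} [DecidableEq κ]

theorem semi_move (Z : Finset κ) (O : κ → Subring F) (Mx : κ → F → Prop)
    (hM0 : ∀ k, Mx k 0)
    (hMadd : ∀ k a b, Mx k a → Mx k b → Mx k (a + b))
    (hMmul : ∀ k a b, a ∈ O k → Mx k b → Mx k (a * b))
    (hMunit : ∀ k a, Mx k a → 1 + a ≠ 0 ∧ 1 + a ∈ O k ∧ (1 + a)⁻¹ ∈ O k)
    (m : ℕ) (hm : m ≠ 0)
    (hnorm : ∀ k z, z ^ m ∈ O k → z ∈ O k)
    (hden : ∀ k ∈ Z, ∀ a ∈ O k, ∃ d : F, d ≠ 0 ∧ (∀ j ∈ Z, d ∈ O j) ∧ d⁻¹ ∈ O k ∧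
      ∀ j ∈ Z, d * a ∈ O j)
    (hsep : ∀ k ∈ Z, ∀ j ∈ Z, k ≠ j → ∃ e : F, e ≠ 0 ∧ (∀ i ∈ Z, e ∈ O i) ∧ e⁻¹ ∈ O k ∧ Mx j e)
    (G : F) (u l : κ → F) (hl : ∀ k ∈ Z, l k ≠ 0) (hu0 : ∀ k ∈ Z, u k ≠ 0)
    (hu : ∀ k ∈ Z, u k ∈ O k) (hu' : ∀ k ∈ Z, (u k)⁻¹ ∈ O k)
    (hG : ∀ k ∈ Z, G = u k * l k ^ m) :
    ∃ H : F, H ≠ 0 ∧ ∀ k ∈ Z, G / H ^ m ∈ O k ∧ (G / H ^ m)⁻¹ ∈ O k := by
  classical
  rcases Z.eq_empty_or_nonempty with rfl | hne
  · exact ⟨1, one_ne_zero, by simp⟩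
  -- the denominators
  have h1 : ∀ k : κ, ∃ d : F, k ∈ Z → (d ≠ 0 ∧ (∀ j ∈ Z, d ∈ O j) ∧ d⁻¹ ∈ O k ∧
      ∀ j ∈ Z, d * (u k)⁻¹ ∈ O j) := by
    intro k
    by_cases hk : k ∈ Z
    · obtain ⟨d, hd⟩ := hden k hk _ (hu' k hk)
      exact ⟨d, fun _ => hd⟩
    · exact ⟨0, fun h => absurd h hk⟩
  choose d hd using h1
  have h2 : ∀ k j : κ, ∃ e : F, k ∈ Z → j ∈ Z → k ≠ j →
      (e ≠ 0 ∧ (∀ i ∈ Z, e ∈ O i) ∧ e⁻¹ ∈ O k ∧ Mx j e) := by
    intro k j
    by_cases hk : k ∈ Z ∧ j ∈ Z ∧ k ≠ j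
    · obtain ⟨e, he⟩ := hsep k hk.1 j hk.2.1 hk.2.2
      exact ⟨e, fun _ _ _ => he⟩
    · exact ⟨0, fun a b c => absurd ⟨a, b, c⟩ hk⟩
  choose e he using h2
  -- the ratio is integral
  have hratio : ∀ k ∈ Z, ∀ j ∈ Z, d k * l k / l j ∈ O j := by
    intro k hk j hj
    apply hnorm
    have e1 : (d k * l k / l j) ^ m = d k ^ (m - 1) * (d k * (u k)⁻¹) * u j := by
      have h3 : u k * l k ^ m = u j * l j ^ m := by rw [← hG k hk, ← hG j hj]
      have h4 : d k ^ m = d k ^ (m - 1) * d k := by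
        rw [← pow_succ, Nat.sub_add_cancel (Nat.one_le_iff_ne_zero.2 hm)]
      have h5 := hl j hj
      have h6 := hu0 k hk
      rw [div_pow, mul_pow, h4]
      field_simp
      linear_combination (d k ^ (m - 1) * d k) * h3
    rw [e1]
    exact (O j).mul_mem ((O j).mul_mem ((O j).pow_mem ((hd k hk).2.1 j hj) _)
      ((hd k hk).2.2.2 j hj)) (hu j hj)
  -- the idempotent-like elements
  set E : κ → F := fun k => ∏ j ∈ Z.erase k, e k j with hE
  have hE0 : ∀ k ∈ Z, E k ≠ 0 := by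
    intro k hk
    rw [hE]
    refine Finset.prod_ne_zero_iff.2 fun j hj => ?_
    exact (he k j hk (Finset.mem_of_mem_erase hj) (Finset.ne_of_mem_erase hj).symm).1
  have hEmem : ∀ k ∈ Z, ∀ i ∈ Z, E k ∈ O i := by
    intro k hk i hi
    refine Subring.prod_mem _ fun j hj => ?_
    exact (he k j hk (Finset.mem_of_mem_erase hj) (Finset.ne_of_mem_erase hj).symm).2.1 i hi
  have hEinv : ∀ k ∈ Z, (E k)⁻¹ ∈ O k := by
    intro k hk
    rw [hE]
    simp only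
    rw [← Finset.prod_inv_distrib]
    refine Subring.prod_mem _ fun j hj => ?_
    exact (he k j hk (Finset.mem_of_mem_erase hj) (Finset.ne_of_mem_erase hj).symm).2.2.1
  have hEmax : ∀ k ∈ Z, ∀ j ∈ Z, k ≠ j → Mx j (E k) := by
    intro k hk j hj hkj
    have hj' : j ∈ Z.erase k := Finset.mem_erase.2 ⟨hkj.symm, hj⟩
    rw [hE]
    simp only
    rw [← Finset.mul_prod_erase _ _ hj', mul_comm]
    refine hMmul j _ _ (Subring.prod_mem _ fun i hi => ?_) (he k j hk hj hkj).2.2.2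
    have hi' := Finset.mem_of_mem_erase hi
    exact (he k i hk (Finset.mem_of_mem_erase hi') (Finset.ne_of_mem_erase hi').symm).2.1 j hj
  have hMsum : ∀ (j : κ) (s : Finset κ) (g : κ → F), (∀ k ∈ s, Mx j (g k)) →
      Mx j (∑ k ∈ s, g k) := by
    intro j s g
    induction s using Finset.induction_on with
    | empty => intro _; simpa using hM0 j
    | insert a s ha ih =>
      intro h
      rw [Finset.sum_insert ha]
      exact hMadd j _ _ (h a (Finset.mem_insert_self a s))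
        (ih fun k hk => h k (Finset.mem_insert_of_mem hk))
  set H : F := ∑ k ∈ Z, l k * d k * E k with hH
  -- `H / l j` is a unit at `j`
  have key : ∀ j ∈ Z, H / l j ≠ 0 ∧ H / l j ∈ O j ∧ (H / l j)⁻¹ ∈ O j := by
    intro j hj
    set w : F := d j * E j with hw
    have hw0 : w ≠ 0 := mul_ne_zero (hd j hj).1 (hE0 j hj)
    have hwm : w ∈ O j := (O j).mul_mem ((hd j hj).2.1 j hj) (hEmem j hj j hj)
    have hwi : w⁻¹ ∈ O j := by
      rw [hw, mul_inv]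
      exact (O j).mul_mem (hd j hj).2.2.1 (hEinv j hj)
    set s : F := ∑ k ∈ Z.erase j, (d k * l k / l j) * E k with hs
    have hsM : Mx j s := by
      refine hMsum j _ _ fun k hk => ?_
      have hk' := Finset.mem_of_mem_erase hk
      exact hMmul j _ _ (hratio k hk' j hj) (hEmax k hk' j hj (Finset.ne_of_mem_erase hk))
    have e2 : H / l j = w * (1 + w⁻¹ * s) := by
      have h5 := hl j hj
      rw [mul_add, mul_one, ← mul_assoc, mul_inv_cancel₀ hw0, one_mul, hH,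
        ← Finset.add_sum_erase _ _ hj, add_div, Finset.sum_div, hw, hs]
      congr 1
      · field_simp
      · refine Finset.sum_congr rfl fun k _ => ?_
        field_simp
    obtain ⟨a1, a2, a3⟩ := hMunit j _ (hMmul j _ _ hwi hsM)
    rw [e2]
    refine ⟨mul_ne_zero hw0 a1, (O j).mul_mem hwm a2, ?_⟩
    rw [mul_inv]
    exact (O j).mul_mem hwi a3
  obtain ⟨j₀, hj₀⟩ := hne
  have hH0 : H ≠ 0 := by
    intro h0
    apply (key j₀ hj₀).1
    rw [h0, zero_div]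
  refine ⟨H, hH0, fun k hk => ?_⟩
  obtain ⟨b1, b2, b3⟩ := key k hk
  have h5 := hl k hk
  have h6 := hu0 k hk
  have e3 : G / H ^ m = u k * ((H / l k)⁻¹) ^ m := by
    rw [hG k hk, inv_div, div_pow]
    field_simp
  have e4 : (G / H ^ m)⁻¹ = (u k)⁻¹ * (H / l k) ^ m := by
    rw [hG k hk, div_pow]
    field_simp
  rw [e4, e3]
  exact ⟨(O k).mul_mem (hu k hk) ((O k).pow_mem b3 _), (O k).mul_mem (hu' k hk) ((O k).pow_mem b2 _)⟩

end Fermat.Agent.S33.Move
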